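import Fermat.Agent.Ribet.H809.M6aSpec
import Fermat.Agent.S28.H88.Theta

/-!
# M6a, leaf (D) DLOG-KRON (helper809): `dlog (kronNorm ℓ h) = T_ℓ (dlog h)`

`θ = q d/dq`.  For `h ∈ k((q))` with `θ h = g · h`:
`θ (kronNorm ℓ h) = (ℓ · V_ℓ g + U_ℓ g) · kronNorm ℓ h`, `ℓ` invertible in `k`.

Proof: `M = secMat ℓ h` satisfies `ℓ · θ M = G M - D M + M D` (`G = secMat ℓ g`,
`D = diag (0, …, ℓ-1)`), so over the dual numbers
`M + ε ℓ θ M = (1 + ε (G - D)) M (1 + ε D)` and `ℓ θ (det M) = tr G · det M`.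
-/

set_option autoImplicit false

noncomputable section

namespace Fermat.Agent.Ribet.H809.M6a

open ModularCurve HahnSeries Matrix
open Fermat.Agent.Ribet.H764.I3 Fermat.Agent.S37.H400 Fermat.Agent.S28

/-! ## Derivations and determinants (dual numbers) -/

section DualDet

variable {R : Type*} [CommRing R] {n : Type*} [Fintype n] [DecidableEq n]

open TrivSqZeroExt DualNumber

/-- The ring homomorphism `a ↦ a + ε δ(a)` attached to a derivation `δ`. -/
def dualHom (δ : R →+ R) (hδ : ∀ a b, δ (a * b) = δ a * b + a * δ b) : R →+* DualNumber R where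
  toFun a := inl a + inr (δ a)
  map_one' := by
    have h1 : δ 1 = 0 := by
      have h := hδ 1 1
      simp only [mul_one, one_mul] at h
      exact left_eq_add.mp h
    rw [h1]
    ext <;> simp
  map_mul' a b := by
    ext
    · simp
    · simp only [snd_add, snd_inl, snd_inr, zero_add, DualNumber.snd_mul, fst_add, fst_inl,
        fst_inr, add_zero, hδ]
      ring
  map_zero' := by ext <;> simp
  map_add' a b := by
    ext
    · simp
    · simp only [map_add, snd_add, snd_inl, snd_inr, zero_add]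

theorem dualHom_apply (δ : R →+ R) (hδ : ∀ a b, δ (a * b) = δ a * b + a * δ b) (a : R) :
    dualHom δ hδ a = inl a + inr (δ a) := rfl

theorem snd_dualHom (δ : R →+ R) (hδ : ∀ a b, δ (a * b) = δ a * b + a * δ b) (a : R) :
    (dualHom δ hδ a).snd = δ a := by
  simp [dualHom_apply]

theorem det_one_add_eps_smul (A : Matrix n n (DualNumber R)) :
    (1 + (ε : DualNumber R) • A).det = 1 + ε * A.trace := by
  rw [Matrix.det_one_add_smul, pow_two, eps_mul_eps, mul_zero, add_zero, mul_comm]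

/-- **Derivative of a determinant** in the situation `δ M = G M - D M + M D`. -/
theorem delta_det (δ : R →+ R) (hδ : ∀ a b, δ (a * b) = δ a * b + a * δ b)
    (M G D : Matrix n n R) (hM : M.map δ = G * M - D * M + M * D) :
    δ M.det = G.trace * M.det := by
  set φ := dualHom δ hδ with hφ
  set ι : R →+* DualNumber R := inlHom R R with hι
  have hεinl : ∀ x : R, (ε : DualNumber R) * ι x = inr x := by
    intro x
    ext <;> simp [hι]
  have h1 : φ.mapMatrix M =
      (1 + (ε : DualNumber R) • ι.mapMatrix (G - D)) * ι.mapMatrix M *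
        (1 + (ε : DualNumber R) • ι.mapMatrix D) := by
    have hL : φ.mapMatrix M = ι.mapMatrix M + (ε : DualNumber R) • ι.mapMatrix (M.map δ) := by
      ext i j : 1
      simp only [RingHom.mapMatrix_apply, Matrix.map_apply, Matrix.add_apply,
        Matrix.smul_apply, smul_eq_mul, hεinl]
      rfl
    have hR : (1 + (ε : DualNumber R) • ι.mapMatrix (G - D)) * ι.mapMatrix M *
        (1 + (ε : DualNumber R) • ι.mapMatrix D) =
        ι.mapMatrix M + (ε : DualNumber R) •
          (ι.mapMatrix (G - D) * ι.mapMatrix M + ι.mapMatrix M * ι.mapMatrix D) := by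
      simp only [Matrix.add_mul, Matrix.mul_add, Matrix.one_mul, Matrix.mul_one,
        Matrix.smul_mul, Matrix.mul_smul, smul_smul, eps_mul_eps, zero_smul, add_zero,
        smul_add]
      abel
    rw [hL, hR, hM, ← map_mul, ← map_mul, ← map_add]
    congr 3
    rw [Matrix.sub_mul]
  have h2 : φ M.det = (φ.mapMatrix M).det := RingHom.map_det φ M
  have h3 : (ι.mapMatrix M).det = ι M.det := (RingHom.map_det ι M).symm
  have htr : ∀ X : Matrix n n R, (ι.mapMatrix X).trace = ι X.trace := by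
    intro X
    simp only [Matrix.trace, Matrix.diag, RingHom.mapMatrix_apply, Matrix.map_apply, map_sum]
  rw [h1, Matrix.det_mul, Matrix.det_mul, det_one_add_eps_smul, det_one_add_eps_smul, h3,
    htr, htr] at h2
  have h4 := congrArg TrivSqZeroExt.snd h2
  rw [snd_dualHom] at h4
  rw [h4]
  simp only [hι, inlHom_apply, DualNumber.snd_mul, TrivSqZeroExt.fst_mul, fst_add, fst_one,
    snd_add, snd_one, fst_inl, snd_inl, fst_eps, snd_eps, Matrix.trace_sub]
  ring

end DualDet

/-! ## `θ` on sections -/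

section Series

variable {k : Type} [Field k]

theorem isTheta_iff (h h' : LaurentSeries k) : IsTheta h h' ↔ h' = thetaL k h := by
  constructor
  · intro H
    ext n
    rw [H n, thetaL_coeff]
  · rintro rfl n
    rw [thetaL_coeff]

theorem isDlog_iff (h : LaurentSeries k) (g : PowerSeries k) :
    IsDlog h g ↔ thetaL k h = HahnSeries.ofPowerSeries ℤ k g * h := by
  rw [IsDlog, isTheta_iff, eq_comm]

theorem coeff_natCast_mul (n : ℕ) (x : LaurentSeries k) (m : ℤ) :
    ((n : LaurentSeries k) * x).coeff m = (n : k) * x.coeff m := by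
  rw [← nsmul_eq_mul, HahnSeries.coeff_smul, nsmul_eq_mul]

theorem coeff_intCast_mul (n : ℤ) (x : LaurentSeries k) (m : ℤ) :
    ((n : LaurentSeries k) * x).coeff m = (n : k) * x.coeff m := by
  rw [← zsmul_eq_mul, HahnSeries.coeff_smul, zsmul_eq_mul]

theorem natCast_laurent_ne_zero {ℓ : ℕ} (hℓ : (ℓ : k) ≠ 0) : (ℓ : LaurentSeries k) ≠ 0 := by
  intro h
  have h1 : ((ℓ : LaurentSeries k) * 1).coeff 0 = 0 := by
    rw [h, zero_mul, HahnSeries.coeff_zero]
  rw [coeff_natCast_mul, HahnSeries.coeff_one, if_pos rfl, mul_one] at h1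
  exact hℓ h1

/-- Sections of `θ h`. -/
theorem secL_thetaL (ℓ : ℕ) [NeZero ℓ] (r : ℤ) (h : LaurentSeries k) :
    secL ℓ r (thetaL k h) =
      (ℓ : LaurentSeries k) * thetaL k (secL ℓ r h) + (r : LaurentSeries k) * secL ℓ r h := by
  ext m
  simp only [secL_coeff, thetaL_coeff, HahnSeries.coeff_add, coeff_natCast_mul,
    coeff_intCast_mul]
  push_cast
  ring

/-- The derivation `ℓ θ`. -/
def ellTheta (ℓ : ℕ) : LaurentSeries k →+ LaurentSeries k where
  toFun x := (ℓ : LaurentSeries k) * thetaL k x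
  map_zero' := by rw [h88_thetaL_zero, mul_zero]
  map_add' a b := by rw [h88_thetaL_add, mul_add]

theorem ellTheta_apply (ℓ : ℕ) (x : LaurentSeries k) :
    ellTheta ℓ x = (ℓ : LaurentSeries k) * thetaL k x := rfl

theorem ellTheta_mul (ℓ : ℕ) (a b : LaurentSeries k) :
    ellTheta ℓ (a * b) = ellTheta ℓ a * b + a * ellTheta ℓ b := by
  rw [ellTheta_apply, ellTheta_apply, ellTheta_apply, h88_thetaL_mul]
  ring

/-- `diag (0, 1, …, ℓ-1)`. -/
def idxDiag (ℓ : ℕ) : Matrix (Fin ℓ) (Fin ℓ) (LaurentSeries k) :=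
  Matrix.diagonal fun i => (((i : ℕ) : ℤ) : LaurentSeries k)

theorem secMat_thetaL (ℓ : ℕ) [NeZero ℓ] (h : LaurentSeries k) :
    secMat ℓ (thetaL k h) =
      (secMat ℓ h).map (ellTheta ℓ) + idxDiag ℓ * secMat ℓ h - secMat ℓ h * idxDiag ℓ := by
  ext i' i : 1
  rw [secMat_apply', secL_thetaL]
  simp only [Matrix.add_apply, Matrix.sub_apply, Matrix.map_apply, idxDiag,
    Matrix.diagonal_mul, Matrix.mul_diagonal, secMat_apply', ellTheta_apply]
  push_cast
  ring

theorem thetaL_det_secMat (ℓ : ℕ) [NeZero ℓ] (hℓ : (ℓ : k) ≠ 0) (h g : LaurentSeries k)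
    (hg : thetaL k h = g * h) :
    thetaL k (secMat ℓ h).det = secL ℓ 0 g * (secMat ℓ h).det := by
  have hM : (secMat ℓ h).map (ellTheta ℓ) =
      secMat ℓ g * secMat ℓ h - idxDiag ℓ * secMat ℓ h + secMat ℓ h * idxDiag ℓ := by
    have h1 := secMat_thetaL ℓ h
    rw [hg, secMat_mul] at h1
    rw [h1]
    abel
  have h1 := delta_det (ellTheta ℓ) (ellTheta_mul ℓ) _ _ _ hM
  have htr : (secMat ℓ g).trace = (ℓ : LaurentSeries k) * secL ℓ 0 g := by
    simp only [Matrix.trace, Matrix.diag, secMat_apply', sub_self, Finset.sum_const,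
      Finset.card_univ, Fintype.card_fin, nsmul_eq_mul]
  rw [htr, ellTheta_apply, mul_assoc] at h1
  exact mul_left_cancel₀ (natCast_laurent_ne_zero hℓ) h1

/-- `T_ℓ = ℓ V_ℓ + U_ℓ` on `q`-series. -/
theorem ofPowerSeries_heckeSeries (ℓ : ℕ) [NeZero ℓ] (g : PowerSeries k) :
    HahnSeries.ofPowerSeries ℤ k (heckeSeries ℓ g) =
      (ℓ : LaurentSeries k) * qExpand k ℓ (HahnSeries.ofPowerSeries ℤ k g) +
        secL ℓ 0 (HahnSeries.ofPowerSeries ℤ k g) := by
  have hℓ0 : (0 : ℤ) < (ℓ : ℤ) := by exact_mod_cast Nat.pos_of_ne_zero (NeZero.ne ℓ)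
  have hcoe : ∀ (x : PowerSeries k) (n : ℤ), (HahnSeries.ofPowerSeries ℤ k x).coeff n =
      if n < 0 then 0 else PowerSeries.coeff n.natAbs x := fun x n => PowerSeries.coeff_coe x n
  ext n
  rw [HahnSeries.coeff_add, coeff_natCast_mul, secL_coeff, hcoe, hcoe, add_zero]
  by_cases hn : n < 0
  · rw [if_pos hn, if_pos (by nlinarith)]
    by_cases hd : (ℓ : ℤ) ∣ n
    · obtain ⟨m, rfl⟩ := hd
      rw [qExpand_coeff_mul, hcoe, if_pos (by nlinarith), mul_zero, zero_add]
    · rw [qExpand_coeff_of_not_dvd ℓ _ hd, mul_zero, zero_add]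
  · obtain ⟨N, rfl⟩ := Int.eq_ofNat_of_zero_le (not_lt.mp hn)
    have hN0 : ¬ ((N : ℤ) < 0) := by omega
    have hN1 : ¬ ((ℓ : ℤ) * (N : ℤ) < 0) := by
      have : (0 : ℤ) ≤ (ℓ : ℤ) * (N : ℤ) := by positivity
      omega
    rw [if_neg hN0, if_neg hN1, coeff_heckeSeries, Int.natAbs_natCast]
    have h1 : ((ℓ : ℤ) * (N : ℤ)).natAbs = N * ℓ := by
      rw [Int.natAbs_mul, Int.natAbs_natCast, Int.natAbs_natCast, mul_comm]
    rw [h1, add_comm]
    congr 1
    by_cases hd : ℓ ∣ N
    · obtain ⟨m, rfl⟩ := hd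
      rw [if_pos (dvd_mul_right _ _), Nat.mul_div_cancel_left m (Nat.pos_of_ne_zero (NeZero.ne ℓ))]
      push_cast
      have hm0 : ¬ ((m : ℤ) < 0) := by omega
      rw [qExpand_coeff_mul, hcoe, if_neg hm0, Int.natAbs_natCast]
    · rw [if_neg hd, qExpand_coeff_of_not_dvd ℓ _ (by exact_mod_cast hd), mul_zero]

/-- **(D) DLOG-KRON.** -/
theorem dlogKron : DlogKronStatement := by
  intro k _ ℓ _ hℓ h g hg
  rw [isDlog_iff] at hg ⊢
  rw [kronNorm, h88_thetaL_mul, h88_thetaL_qExpand, hg, map_mul,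
    thetaL_det_secMat ℓ hℓ h _ hg, ofPowerSeries_heckeSeries]
  ring

end Series

end Fermat.Agent.Ribet.H809.M6a

end
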