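import Fermat.Agent.Ribet.H809.M6aSpec
import Fermat.Agent.S37.H157.NodeNormId

/-!
# M6a, leaf (B) GAUSS-KRON (helper809): the Hecke norm preserves Gauss normal forms

`heckeNorm N ℓ f` has `q`-expansion `kronNorm ℓ f` (`S37.H157.norm_heckeBetaBar`), and
`kronNorm ℓ` is multiplicative and commutes with coefficient maps.  Hence a normal form
`f · U₂ = c · U₁` gives `heckeNorm f · K U₂ = c^(ℓ+1) · K U₁`, `K = kronNorm ℓ`, and
`red∞ (heckeNorm f) = kronNorm ℓ (red∞ f)`.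
-/

set_option autoImplicit false
set_option linter.style.haveILetI false

noncomputable section

namespace Fermat.Agent.Ribet.H809.M6a

open AlgebraicCurve ModularCurve HahnSeries
open Fermat.Agent.S29.H395 Fermat.Agent.S37.H400 Fermat.Agent.A2

local notation "Qb" => AlgebraicClosure ℚ

section Formal

variable {K : Type*} [Field K]

/-- The Kronecker norm of a nonzero series over a field is nonzero. -/
theorem kronNorm_ne_zero (ℓ : ℕ) [NeZero ℓ] {x : LaurentSeries K} (hx : x ≠ 0) :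
    kronNorm ℓ x ≠ 0 := by
  intro h
  have h1 : kronNorm ℓ (x * x⁻¹) = 1 := by
    rw [mul_inv_cancel₀ hx, kronNorm_one]
  rw [kronNorm_mul, h, zero_mul] at h1
  exact zero_ne_one h1

/-- The Kronecker norm of a constant `c` is `c ^ (ℓ + 1)`. -/
theorem kronNorm_cst (ℓ : ℕ) [NeZero ℓ] (c : K) :
    kronNorm ℓ (H708.cst c) = H708.cst (c ^ (ℓ + 1)) := by
  have hq : qExpand K ℓ (H708.cst c) = H708.cst c := by
    show qExpand K ℓ (algebraMap K (LaurentSeries K) c) = algebraMap K (LaurentSeries K) c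
    rw [algebraMap_laurentSeries_eq_single, qExpand_single, mul_zero]
  have hs : secMat ℓ (H708.cst c) = Matrix.scalar (Fin ℓ) (H708.cst c) := by
    conv_lhs => rw [← hq]
    exact secMat_qExpand ℓ _
  rw [kronNorm, hq, hs, Matrix.scalar_apply, Matrix.det_diagonal, Finset.prod_const,
    Finset.card_univ, Fintype.card_fin, ← pow_succ']
  exact (map_pow _ c (ℓ + 1)).symm

end Formal

/-- The `q`-expansion of the Hecke norm is the Kronecker norm. -/
theorem coe_heckeNorm (N ℓ : ℕ) [NeZero N] [NeZero ℓ] (hℓ : ℓ.Prime) (hℓN : ¬ ℓ ∣ N)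
    (f : modularFunctionFieldBar N) :
    ((heckeNorm N ℓ f : modularFunctionFieldBar N) : LaurentSeries Qb) =
      kronNorm ℓ (f : LaurentSeries Qb) :=
  Fermat.Agent.S37.H157.norm_heckeBetaBar N ℓ hℓ hℓN f

/-- `kronNorm ℓ` preserves `F_N` (as a set of series). -/
theorem kronNorm_mem (N ℓ : ℕ) [NeZero N] [NeZero ℓ] (hℓ : ℓ.Prime) (hℓN : ¬ ℓ ∣ N)
    {x : LaurentSeries Qb} (hx : x ∈ laurentBaseChange Qb (modularFunctionFieldFull N)) :
    kronNorm ℓ x ∈ laurentBaseChange Qb (modularFunctionFieldFull N) := by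
  have h := coe_heckeNorm N ℓ hℓ hℓN ⟨x, hx⟩
  rw [← h]
  exact (heckeNorm N ℓ ⟨x, hx⟩).2

/-- **(B) GAUSS-KRON.** -/
theorem gaussKron : GaussKronStatement := by
  intro A N ℓ _ _ hℓ hℓN f c U₁ U₂ h₁ h₂ hm₁ hm₂ he
  have hr : ∀ U : LaurentSeries A, H708.red A (kronNorm ℓ U) = kronNorm ℓ (H708.red A U) :=
    fun U => coeffMap_kronNorm (IsLocalRing.residue A) ℓ U
  have hi : ∀ U : LaurentSeries A, H708.incl A (kronNorm ℓ U) = kronNorm ℓ (H708.incl A U) :=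
    fun U => coeffMap_kronNorm A.subtype ℓ U
  refine ⟨⟨hr U₁, hr U₂⟩, ⟨?_, ?_⟩, ⟨?_, ?_⟩, ?_⟩
  · rw [hr]
    exact kronNorm_ne_zero ℓ h₁
  · rw [hr]
    exact kronNorm_ne_zero ℓ h₂
  · rw [hi]
    exact kronNorm_mem N ℓ hℓ hℓN hm₁
  · rw [hi]
    exact kronNorm_mem N ℓ hℓ hℓN hm₂
  · rw [coe_heckeNorm N ℓ hℓ hℓN, hi, hi, ← kronNorm_mul, he, kronNorm_mul, kronNorm_cst]

/-- **(B′) reduction form.** -/
theorem redKron : RedKronStatement := by
  intro A N ℓ _ _ hℓ hℓN f h hred h0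
  obtain ⟨U₁, U₂, h₂, hm₂, he, hh⟩ := hred
  have h₁ : H708.red A U₁ ≠ 0 := by
    rw [← hh]
    exact mul_ne_zero h0 h₂
  have hm₁ : H708.incl A U₁ ∈ laurentBaseChange Qb (modularFunctionFieldFull N) := by
    rw [← he]
    exact mul_mem f.2 hm₂
  have he' : (f : LaurentSeries Qb) * H708.incl A U₂ = H708.cst 1 * H708.incl A U₁ := by
    rw [H708.cst_one, one_mul, he]
  obtain ⟨⟨hr₁, hr₂⟩, ⟨-, hn₂⟩, ⟨-, hk₂⟩, hE⟩ :=
    gaussKron A N ℓ hℓ hℓN f 1 U₁ U₂ h₁ h₂ hm₁ hm₂ he'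
  refine ⟨kronNorm ℓ U₁, kronNorm ℓ U₂, hn₂, hk₂, ?_, ?_⟩
  · rw [hE, one_pow, H708.cst_one, one_mul]
  · rw [hr₁, hr₂, ← kronNorm_mul, hh]

end Fermat.Agent.Ribet.H809.M6a

end
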