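import Fermat.Agent.Ribet.H809.M6aSpec
import Fermat.Agent.Lib.FF398.Hecke
import Fermat.Agent.S18.H144.ConstF

/-!
# M6a, leaf (A) KUMMER-HECKE (helper809)

For a `T_ℓ`-eigenclass `[D]` (eigenvalue `a`) with Kummer function `f` (`m D = div f`):
`heckeNorm f = c · f^a · g^m`, `c ∈ ℚ̄ˣ`, `g ∈ F_Nˣ`.
(`T_ℓ [D] = [D']` with `m D' = div (heckeNorm f)`: `S29.H395.heckeOperatorBar_mk`;
functions without zeros and poles are constant: `S18.H144`.)
-/

set_option autoImplicit false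
set_option linter.style.haveILetI false

noncomputable section

namespace Fermat.Agent.Ribet.H809.M6a

open AlgebraicCurve ModularCurve
open Fermat.Agent.S29.H395

local notation "Qb" => AlgebraicClosure ℚ

/-- **(A) KUMMER-HECKE.** -/
theorem eigenKummer : EigenKummerStatement := by
  intro N _ ℓ a m hm D f hf hD heig
  haveI : NeZero (ℓ : ℕ) := ⟨ℓ.2.ne_zero⟩
  have hHI := Fermat.Agent.Lib.FF398.heckeInputsAlong N (ℓ : ℕ)
  obtain ⟨D', hTD, hD'⟩ := heckeOperatorBar_mk N ℓ hHI D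
  have hk := hD' (m : ℤ) f hf hD
  have h1 : Pic0.mk D' = Pic0.mk (a • D) := by
    rw [← hTD, heig]
    rfl
  obtain ⟨g, hg, hgD⟩ := mk_eq_mk_iff.mp h1
  have hNf : heckeNorm N (ℓ : ℕ) f ≠ 0 := heckeNorm_ne_zero N (ℓ : ℕ) hHI hf
  have hfa : f ^ a ≠ 0 := zpow_ne_zero a hf
  have hgm : g ^ m ≠ 0 := pow_ne_zero m hg
  have hu0 : heckeNorm N (ℓ : ℕ) f * (f ^ a)⁻¹ * (g ^ m)⁻¹ ≠ 0 :=
    mul_ne_zero (mul_ne_zero hNf (inv_ne_zero hfa)) (inv_ne_zero hgm)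
  have hu : ∀ v : Place Qb (modularFunctionFieldBar N),
      v.ord (heckeNorm N (ℓ : ℕ) f * (f ^ a)⁻¹ * (g ^ m)⁻¹) = 0 := by
    intro v
    have e1 := hgD v
    rw [AddSubgroup.coe_zsmul, Finsupp.smul_apply, smul_eq_mul] at e1
    have e2 : v.ord (g ^ m) = (m : ℤ) * v.ord g := by
      have := v.ord_zpow g (m : ℤ)
      simpa using this
    rw [v.ord_mul (mul_ne_zero hNf (inv_ne_zero hfa)) (inv_ne_zero hgm),
      v.ord_mul hNf (inv_ne_zero hfa), v.ord_inv, v.ord_inv, v.ord_zpow, e2, ← hk v, ← hD v,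
      ← e1]
    ring
  obtain ⟨c, hc⟩ :=
    Fermat.Agent.S18.H144.constOfOrdZero_modularFunctionFieldBar N _ hu0 hu
  have hc0 : c ≠ 0 := by
    rintro rfl
    rw [map_zero] at hc
    exact hu0 hc
  refine ⟨c, g, hc0, hg, ?_⟩
  rw [← hc]
  field_simp

end Fermat.Agent.Ribet.H809.M6a

end
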