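import Fermat.Agent.Ribet.H809.M6aRed
import Fermat.Agent.Ribet.H809.M6aDlog
import Fermat.Agent.Ribet.H809.M6aGauss
import Fermat.Agent.Ribet.H809.M6aKummer

/-!
# M6a, assembly at `V∞` (helper809): `eigenRedInf : EigenRedInfStatement`

For a Hecke eigenclass `x = [D]` with Kummer function `f` (`m D = div f`, `p ∣ m`) and
`V∞`-reduction `h ≠ 0`, the series `g = θh / h` satisfies `T_ℓ g = a_ℓ g` for all primes
`ℓ ∤ N`, `ℓ ∉ S ∪ {p}`:

  `heckeNorm f = c f^a g₀^m`  (A)  ⟹  `kronNorm ℓ h = c̄ · h^a · w^m`  (B + `IsRedInf` calculus)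
  ⟹  `dlog (kronNorm ℓ h) = a · dlog h`  (`m = 0` in `k`),  and `= T_ℓ (dlog h)` by (D).
-/

set_option autoImplicit false
set_option linter.style.haveILetI false

noncomputable section

namespace Fermat.Agent.Ribet.H809.M6a

open AlgebraicCurve ModularCurve HahnSeries
open Fermat.Agent.Ribet.H944.Wall Fermat.Agent.Ribet.H764.I3
open Fermat.Agent.S29.H395 Fermat.Agent.S37.H400 Fermat.Agent.A2 Fermat.Agent.S28

local notation "Qb" => AlgebraicClosure ℚ

/-! ## Logarithmic derivatives -/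

section DlogCalc

variable {k : Type} [Field k]

/-- `θ x = y · x`. -/
def HasDlog (x y : LaurentSeries k) : Prop := thetaL k x = y * x

theorem HasDlog.mul {x x' y y' : LaurentSeries k} (hx : HasDlog x y) (hx' : HasDlog x' y') :
    HasDlog (x * x') (y + y') := by
  unfold HasDlog at *
  rw [h88_thetaL_mul, hx, hx']
  ring

theorem HasDlog.one : HasDlog (1 : LaurentSeries k) 0 := by
  unfold HasDlog
  rw [h88_thetaL_one, zero_mul]

theorem HasDlog.inv {x y : LaurentSeries k} (hx : HasDlog x y) (x0 : x ≠ 0) :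
    HasDlog x⁻¹ (-y) := by
  unfold HasDlog at *
  have h1 : thetaL k (x * x⁻¹) = 0 := by rw [mul_inv_cancel₀ x0, h88_thetaL_one]
  rw [h88_thetaL_mul, hx, mul_assoc, mul_inv_cancel₀ x0, mul_one] at h1
  have h2 : x * thetaL k x⁻¹ = x * (-y * x⁻¹) := by
    rw [← mul_assoc, mul_comm x (-y), mul_assoc, mul_inv_cancel₀ x0, mul_one]
    linear_combination h1
  exact mul_left_cancel₀ x0 h2

theorem HasDlog.pow {x y : LaurentSeries k} (hx : HasDlog x y) (n : ℕ) :
    HasDlog (x ^ n) ((n : LaurentSeries k) * y) := by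
  induction n with
  | zero => rw [pow_zero, Nat.cast_zero, zero_mul]; exact HasDlog.one
  | succ n ih =>
    rw [pow_succ]
    have h := ih.mul hx
    have e : (n : LaurentSeries k) * y + y = ((n + 1 : ℕ) : LaurentSeries k) * y := by
      push_cast
      ring
    rwa [e] at h

theorem HasDlog.zpow {x y : LaurentSeries k} (hx : HasDlog x y) (x0 : x ≠ 0) (a : ℤ) :
    HasDlog (x ^ a) ((a : LaurentSeries k) * y) := by
  cases a with
  | ofNat n =>
    rw [Int.ofNat_eq_natCast, zpow_natCast, Int.cast_natCast]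
    exact hx.pow n
  | negSucc n =>
    rw [zpow_negSucc]
    have h := (hx.pow (n + 1)).inv (pow_ne_zero _ x0)
    have e : -(((n + 1 : ℕ) : LaurentSeries k) * y) =
        ((Int.negSucc n : ℤ) : LaurentSeries k) * y := by
      rw [Int.cast_negSucc]
      ring
    rwa [e] at h

theorem HasDlog.single_zero (c : k) : HasDlog (HahnSeries.single (0 : ℤ) c) 0 := by
  unfold HasDlog
  rw [h88_thetaL_single_zero, zero_mul]

theorem HasDlog.unique {x y y' : LaurentSeries k} (hx : HasDlog x y) (hx' : HasDlog x y')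
    (x0 : x ≠ 0) : y = y' := by
  unfold HasDlog at *
  rw [hx] at hx'
  exact mul_right_cancel₀ x0 hx'

end DlogCalc

/-! ## Characteristic of the residue field -/

section Char

variable {A : ValuationSubring Qb}

theorem natCast_residue_eq_zero {p : ℕ} (hA : (p : Qb) ∈ A.nonunits) :
    (p : IsLocalRing.ResidueField A) = 0 := by
  obtain ⟨ha, hmem⟩ := (A.mem_nonunits_iff_exists_mem_maximalIdeal).mp hA
  have h1 : IsLocalRing.residue A ⟨(p : Qb), ha⟩ = 0 :=
    (IsLocalRing.residue_eq_zero_iff _).mpr hmem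
  have h2 : (⟨(p : Qb), ha⟩ : A) = ((p : ℕ) : A) := Subtype.ext (by simp)
  rw [h2, map_natCast] at h1
  exact h1

theorem natCast_residue_ne_zero {p ℓ : ℕ} (hp : p.Prime) (hℓ : ℓ.Prime) (hℓp : ℓ ≠ p)
    (hA : (p : Qb) ∈ A.nonunits) : (ℓ : IsLocalRing.ResidueField A) ≠ 0 := by
  intro h
  have hcop : Nat.Coprime ℓ p := (Nat.coprime_primes hℓ hp).mpr hℓp
  have h1 : ((ℓ : ℤ) : IsLocalRing.ResidueField A) * (Nat.gcdA ℓ p : ℤ) +
      ((p : ℤ) : IsLocalRing.ResidueField A) * (Nat.gcdB ℓ p : ℤ) = 1 := by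
    have := Nat.gcd_eq_gcd_ab ℓ p
    rw [hcop] at this
    have h2 := congrArg (fun z : ℤ => (z : IsLocalRing.ResidueField A)) this
    simp only [Nat.cast_one, Int.cast_one, Int.cast_add, Int.cast_mul] at h2
    exact h2.symm
  rw [Int.cast_natCast, Int.cast_natCast, h, natCast_residue_eq_zero hA, zero_mul, zero_mul,
    add_zero] at h1
  exact zero_ne_one h1

theorem natCast_laurent_eq_zero {k : Type} [Field k] {m : ℕ} (hm : (m : k) = 0) :
    (m : LaurentSeries k) = 0 := by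
  have h1 : (m : LaurentSeries k) = (m : LaurentSeries k) * 1 := (mul_one _).symm
  rw [h1]
  ext n
  rw [coeff_natCast_mul, hm, zero_mul, HahnSeries.coeff_zero]

end Char

/-! ## The assembly -/

/-- Function-level core: if `heckeNorm f = c · f^a · g₀^m` (`p ∣ m`) and `h ≠ 0` is the
`V∞`-reduction of `f`, then `T_ℓ (dlog h) = a · dlog h`. -/
theorem heckeSeries_eq_of_fun (p N : ℕ) [NeZero N] (A : ValuationSubring Qb) (hp : p.Prime)
    (hA : (p : Qb) ∈ A.nonunits) (ℓ : ℕ) [NeZero ℓ] (hℓ : ℓ.Prime) (hℓN : ¬ ℓ ∣ N) (hℓp : ℓ ≠ p)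
    (a : ℤ) (m : ℕ) (hpm : p ∣ m) (f : modularFunctionFieldBar N) (hf : f ≠ 0)
    (c : Qb) (g₀ : modularFunctionFieldBar N) (hg₀ : g₀ ≠ 0)
    (hE' : heckeNorm N ℓ f = algebraMap Qb (modularFunctionFieldBar N) c * f ^ a * g₀ ^ m)
    (h : LaurentSeries (IsLocalRing.ResidueField A)) (hred : IsRedInf A N f h) (h0 : h ≠ 0)
    (g : PowerSeries (IsLocalRing.ResidueField A)) (hg : IsDlog h g) (n : ℕ) :
    PowerSeries.coeff (n * ℓ) g +
        (if ℓ ∣ n then (ℓ : IsLocalRing.ResidueField A) * PowerSeries.coeff (n / ℓ) g else 0) =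
      (a : IsLocalRing.ResidueField A) * PowerSeries.coeff n g := by
  have hℓk : (ℓ : IsLocalRing.ResidueField A) ≠ 0 := natCast_residue_ne_zero hp hℓ hℓp hA
  have hmk : (m : LaurentSeries (IsLocalRing.ResidueField A)) = 0 := by
    apply natCast_laurent_eq_zero
    obtain ⟨m', rfl⟩ := hpm
    rw [Nat.cast_mul, natCast_residue_eq_zero hA, zero_mul]
  -- (B′)
  have hK : IsRedInf A N (heckeNorm N ℓ f) (kronNorm ℓ h) :=
    redKron A N ℓ hℓ hℓN f h hred h0
  -- scaling of `g₀`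
  obtain ⟨d, w, hd, hw, hW⟩ := exists_isRedInf (A := A) (N := N) hp.ne_zero hA hg₀
  have hd' : algebraMap Qb (modularFunctionFieldBar N) d ≠ 0 := by simpa using hd
  have hX : IsRedInf A N
      (f ^ a * (g₀ * (algebraMap Qb (modularFunctionFieldBar N) d)⁻¹) ^ m)
      (h ^ a * w ^ m) := (hred.zpow h0 _).mul (hW.pow m)
  have hX0 : h ^ a * w ^ m ≠ 0 := mul_ne_zero (zpow_ne_zero _ h0) (pow_ne_zero _ hw)
  have hconst : heckeNorm N ℓ f *
      (f ^ a * (g₀ * (algebraMap Qb (modularFunctionFieldBar N) d)⁻¹) ^ m)⁻¹ =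
      algebraMap Qb (modularFunctionFieldBar N) (c * d ^ m) := by
    have hfa : f ^ a ≠ 0 := zpow_ne_zero _ hf
    have hg₀m : g₀ ^ m ≠ 0 := pow_ne_zero _ hg₀
    have hdm : (algebraMap Qb (modularFunctionFieldBar N) d) ^ m ≠ 0 := pow_ne_zero _ hd'
    rw [hE', map_mul, map_pow, mul_pow, inv_pow]
    field_simp
  have hR : IsRedInf A N (algebraMap Qb (modularFunctionFieldBar N) (c * d ^ m))
      (kronNorm ℓ h * (h ^ a * w ^ m)⁻¹) := by
    rw [← hconst]
    exact hK.mul (hX.inv hX0)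
  obtain ⟨e, he⟩ := hR.const
  have hKh : kronNorm ℓ h = HahnSeries.single 0 e * (h ^ a * w ^ m) := by
    rw [← he, mul_assoc, inv_mul_cancel₀ hX0, mul_one]
  -- logarithmic derivatives
  have hDl : HasDlog h (HahnSeries.ofPowerSeries ℤ _ g) := (isDlog_iff h g).mp hg
  have hDw : HasDlog w (thetaL _ w * w⁻¹) := by
    unfold HasDlog
    rw [mul_assoc, inv_mul_cancel₀ hw, mul_one]
  have hD1 := (HasDlog.single_zero e).mul ((hDl.zpow h0 a).mul (hDw.pow m))
  rw [← hKh, hmk, zero_mul, add_zero, zero_add] at hD1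
  have hD2 : HasDlog (kronNorm ℓ h) (HahnSeries.ofPowerSeries ℤ _ (heckeSeries ℓ g)) :=
    (isDlog_iff _ _).mp (dlogKron _ ℓ hℓk h g hg)
  have hEq := hD2.unique hD1 (kronNorm_ne_zero ℓ h0)
  have hn := congrArg (fun x : LaurentSeries (IsLocalRing.ResidueField A) => x.coeff (n : ℤ)) hEq
  simp only [coeff_intCast_mul] at hn
  have hcoe : ∀ (x : PowerSeries (IsLocalRing.ResidueField A)),
      (HahnSeries.ofPowerSeries ℤ _ x).coeff (n : ℤ) = PowerSeries.coeff n x := by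
    intro x
    have := PowerSeries.coeff_coe x (n : ℤ)
    rw [if_neg (by omega), Int.natAbs_natCast] at this
    exact this
  rw [hcoe, hcoe, coeff_heckeSeries] at hn
  exact hn

/-- **M6a at `V∞`.** -/
theorem eigenRedInf : EigenRedInfStatement := by
  intro p N _ A hp hA S a m hpm hm D f hf hD heig h hred h0 g hg ℓ hℓ hℓN hℓS n
  haveI : NeZero ℓ := ⟨hℓ.ne_zero⟩
  have hℓp : ℓ ≠ p := fun e => hℓS (e ▸ Finset.mem_insert_self _ _)
  have hℓS' : ℓ ∉ S := fun e => hℓS (Finset.mem_insert_of_mem e)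
  obtain ⟨c, g₀, -, hg₀, hE⟩ :=
    eigenKummer N ⟨ℓ, hℓ⟩ (a ℓ) m hm D f hf hD (heig ⟨ℓ, hℓ⟩ hℓS')
  exact heckeSeries_eq_of_fun p N A hp hA ℓ hℓ hℓN hℓp (a ℓ) m hpm f hf c g₀ hg₀ hE h hred h0
    g hg n

/-- **M6a at `V₀`**, from (C) FRICKE-NORM. -/
theorem eigenRedZero_of (hC : FrickeNormStatement) : EigenRedZeroStatement := by
  intro p N _ A hp hA S a m hpm hm D f hf hD heig h hred h0 g hg ℓ hℓ hℓN hℓS n
  haveI : NeZero ℓ := ⟨hℓ.ne_zero⟩
  have hℓp : ℓ ≠ p := fun e => hℓS (e ▸ Finset.mem_insert_self _ _)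
  have hℓS' : ℓ ∉ S := fun e => hℓS (Finset.mem_insert_of_mem e)
  obtain ⟨c, g₀, -, hg₀, hE⟩ :=
    eigenKummer N ⟨ℓ, hℓ⟩ (a ℓ) m hm D f hf hD (heig ⟨ℓ, hℓ⟩ hℓS')
  have hE' : heckeNorm N ℓ f =
      algebraMap Qb (modularFunctionFieldBar N) c * f ^ (a ℓ) * g₀ ^ m := hE
  have hW : heckeNorm N ℓ (H528.wF N f) =
      algebraMap Qb (modularFunctionFieldBar N) c * (H528.wF N f) ^ (a ℓ) *
        (H528.wF N g₀) ^ m := by
    rw [← hC N ℓ hℓ hℓN f, hE', map_mul, map_mul, map_pow, map_zpow₀, AlgEquiv.commutes]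
  have hwf : H528.wF N f ≠ 0 := (map_ne_zero _).mpr hf
  have hwg : H528.wF N g₀ ≠ 0 := (map_ne_zero _).mpr hg₀
  exact heckeSeries_eq_of_fun p N A hp hA ℓ hℓ hℓN hℓp (a ℓ) m hpm _ hwf c _ hwg hW h hred h0
    g hg n

end Fermat.Agent.Ribet.H809.M6a

end
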