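import Fermat.Agent.Ribet.H809.M6aSpec

/-!
# M6a (helper809): calculus of `IsRedInf` (reduction at `V∞`)

`IsRedInf A N f h` is multiplicative, compatible with inverses and integer powers, unique,
every `g ≠ 0` has a nonzero reduction after scaling by a constant, and the reduction of a
constant is a constant.
-/

set_option autoImplicit false
set_option linter.style.haveILetI false

noncomputable section

namespace Fermat.Agent.Ribet.H809.M6a

open AlgebraicCurve ModularCurve HahnSeries
open Fermat.Agent.A2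

local notation "Qb" => AlgebraicClosure ℚ

variable {A : ValuationSubring Qb} {N : ℕ}

theorem IsRedInf.one : IsRedInf A N 1 1 :=
  ⟨1, 1, by rw [map_one]; exact one_ne_zero, by rw [map_one]; exact one_mem _,
    by rw [map_one, mul_one]; rfl, by rw [map_one, mul_one]⟩

theorem IsRedInf.mul {f f' : modularFunctionFieldBar N}
    {h h' : LaurentSeries (IsLocalRing.ResidueField A)} (H : IsRedInf A N f h)
    (H' : IsRedInf A N f' h') : IsRedInf A N (f * f') (h * h') := by
  obtain ⟨U₁, U₂, h0, hm, he, hh⟩ := H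
  obtain ⟨W₁, W₂, h0', hm', he', hh'⟩ := H'
  refine ⟨U₁ * W₁, U₂ * W₂, ?_, ?_, ?_, ?_⟩
  · rw [map_mul]
    exact mul_ne_zero h0 h0'
  · rw [map_mul]
    exact mul_mem hm hm'
  · rw [map_mul, map_mul, ← he, ← he']
    show (f : LaurentSeries Qb) * (f' : LaurentSeries Qb) * _ = _
    ring
  · rw [map_mul, map_mul, ← hh, ← hh']
    ring

theorem IsRedInf.ne_zero {f : modularFunctionFieldBar N}
    {h : LaurentSeries (IsLocalRing.ResidueField A)} (H : IsRedInf A N f h) (h0 : h ≠ 0) :
    f ≠ 0 := by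
  obtain ⟨U₁, U₂, h2, hm, he, hh⟩ := H
  rintro rfl
  have h1 : H708.incl A U₁ = 0 := by
    rw [← he]
    show (0 : LaurentSeries Qb) * _ = 0
    rw [zero_mul]
  have h3 : U₁ = 0 := H708.incl_injective A (by rw [h1, map_zero])
  rw [h3, map_zero] at hh
  rcases mul_eq_zero.mp hh with h4 | h4
  · exact h0 h4
  · exact h2 h4

theorem IsRedInf.inv {f : modularFunctionFieldBar N}
    {h : LaurentSeries (IsLocalRing.ResidueField A)} (H : IsRedInf A N f h) (h0 : h ≠ 0) :
    IsRedInf A N f⁻¹ h⁻¹ := by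
  have hf : f ≠ 0 := H.ne_zero h0
  obtain ⟨U₁, U₂, h2, hm, he, hh⟩ := H
  have hf' : (f : LaurentSeries Qb) ≠ 0 := fun h => hf (Subtype.ext h)
  refine ⟨U₂, U₁, ?_, ?_, ?_, ?_⟩
  · rw [← hh]
    exact mul_ne_zero h0 h2
  · rw [← he]
    exact mul_mem f.2 hm
  · rw [← he, IntermediateField.coe_inv, ← mul_assoc, inv_mul_cancel₀ hf', one_mul]
  · rw [← hh, ← mul_assoc, inv_mul_cancel₀ h0, one_mul]

theorem IsRedInf.pow {f : modularFunctionFieldBar N}
    {h : LaurentSeries (IsLocalRing.ResidueField A)} (H : IsRedInf A N f h) (n : ℕ) :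
    IsRedInf A N (f ^ n) (h ^ n) := by
  induction n with
  | zero => rw [pow_zero, pow_zero]; exact IsRedInf.one
  | succ n ih => rw [pow_succ, pow_succ]; exact ih.mul H

theorem IsRedInf.zpow {f : modularFunctionFieldBar N}
    {h : LaurentSeries (IsLocalRing.ResidueField A)} (H : IsRedInf A N f h) (h0 : h ≠ 0)
    (a : ℤ) : IsRedInf A N (f ^ a) (h ^ a) := by
  cases a with
  | ofNat n =>
    rw [Int.ofNat_eq_natCast, zpow_natCast, zpow_natCast]
    exact H.pow n
  | negSucc n =>
    rw [zpow_negSucc, zpow_negSucc]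
    exact (H.pow (n + 1)).inv (pow_ne_zero _ h0)

/-- The reduction is unique. -/
theorem IsRedInf.unique {f : modularFunctionFieldBar N}
    {h h' : LaurentSeries (IsLocalRing.ResidueField A)} (H : IsRedInf A N f h)
    (H' : IsRedInf A N f h') : h = h' := by
  obtain ⟨U₁, U₂, h0, hm, he, hh⟩ := H
  obtain ⟨W₁, W₂, h0', hm', he', hh'⟩ := H'
  have h1 : U₁ * W₂ = W₁ * U₂ := by
    apply H708.incl_injective A
    rw [map_mul, map_mul, ← he, ← he']
    ring
  have h2 : H708.red A U₁ * H708.red A W₂ = H708.red A W₁ * H708.red A U₂ := by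
    rw [← map_mul, ← map_mul, h1]
  rw [← hh, ← hh'] at h2
  have h3 : h * (H708.red A U₂ * H708.red A W₂) = h' * (H708.red A U₂ * H708.red A W₂) := by
    linear_combination h2
  exact mul_right_cancel₀ (mul_ne_zero h0 h0') h3

/-- The reduction of a constant is a constant. -/
theorem IsRedInf.const {e : Qb} {r : LaurentSeries (IsLocalRing.ResidueField A)}
    (H : IsRedInf A N (algebraMap Qb (modularFunctionFieldBar N) e) r) :
    ∃ c : IsLocalRing.ResidueField A, r = HahnSeries.single 0 c := by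
  obtain ⟨U₁, U₂, h0, hm, he, hh⟩ := H
  have he' : H708.cst e * H708.incl A U₂ = H708.incl A U₁ := he
  have heA : e ∈ A := H708.mem_of_cst_mul_prim A h0 he'
  have h1 : H708.cstA A ⟨e, heA⟩ * U₂ = U₁ := by
    apply H708.incl_injective A
    rw [map_mul, H708.incl_cstA]
    exact he'
  refine ⟨IsLocalRing.residue A ⟨e, heA⟩, ?_⟩
  have h2 : H708.red A (H708.cstA A ⟨e, heA⟩) * H708.red A U₂ = H708.red A U₁ := by
    rw [← map_mul, h1]
  rw [← hh, H708.red_cstA] at h2
  exact (mul_right_cancel₀ h0 h2).symm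

/-- Every nonzero function has, after scaling by a constant, a nonzero reduction. -/
theorem exists_isRedInf [NeZero N] {p : ℕ} (hp : p ≠ 0) (hA : (p : Qb) ∈ A.nonunits)
    {g : modularFunctionFieldBar N} (hg : g ≠ 0) :
    ∃ (d : Qb) (w : LaurentSeries (IsLocalRing.ResidueField A)), d ≠ 0 ∧ w ≠ 0 ∧
      IsRedInf A N (g * (algebraMap Qb (modularFunctionFieldBar N) d)⁻¹) w := by
  have hg' : (g : LaurentSeries Qb) ≠ 0 := fun h => hg (Subtype.ext h)
  obtain ⟨c, U₁, U₂, hc, h₁, h₂, hm₁, hm₂, he⟩ :=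
    H708.exists_normal_form (A := A) (H708.intGen_full N)
      (H708.attainsMax_Qbar hp hA (modularFunctionFieldFull N)) g.2 hg'
  refine ⟨c, H708.red A U₁ * (H708.red A U₂)⁻¹, hc, mul_ne_zero h₁ (inv_ne_zero h₂),
    U₁, U₂, h₂, hm₂, ?_, ?_⟩
  · have : ((g * (algebraMap Qb (modularFunctionFieldBar N) c)⁻¹ : modularFunctionFieldBar N) :
        LaurentSeries Qb) = (g : LaurentSeries Qb) * (H708.cst c)⁻¹ := by
      rw [IntermediateField.coe_mul, IntermediateField.coe_inv]
      rfl
    rw [this, mul_assoc, mul_comm (H708.cst c)⁻¹, ← mul_assoc, he, mul_comm (H708.cst c),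
      mul_assoc, mul_inv_cancel₀ (H708.cst_ne_zero hc), mul_one]
  · rw [mul_assoc, inv_mul_cancel₀ h₂, mul_one]

end Fermat.Agent.Ribet.H809.M6a

end
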