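import Fermat.Agent.Ribet.H764.I3Spec
import Fermat.Agent.S29.H395.KummerCorr
import Fermat.Agent.S37.H400.KronNorm
import Fermat.Agent.A2.H708.GaussLevel

/-!
# Row 38, WALL-p, leaf M6a: `T_ℓ`-compatibility of the Gauss valuations `V∞`, `V₀`
  (helper809; frozen interface: Props + vocabulary)

`N` a level (`N = p·M'` in the wall), `A` a valuation ring of `ℚ̄` over `p`, `k` its residue field,
`ℓ ∤ N` a prime, `ℓ ≠ p`.  `F_N = modularFunctionFieldBar N ⊆ ℚ̄((q))`.

* `heckeNorm N ℓ f = Nm_α (β f)` (`S29.H395`) is the function-level shadow of `T_ℓ = α_* β^*`;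
  its `q`-expansion is `kronNorm ℓ f = V_ℓ f · det (secMat ℓ f)` (`S37.H157.norm_heckeBetaBar`).
* `IsRedInf A N f h` : `h ∈ k((q))` is the reduction at `V∞` of `f ∈ F_N` (`f = U₁ / U₂`,
  `U₂` primitive, `h = Ū₁ / Ū₂`);  `IsRedZero A N f h := IsRedInf A N (w_N f) h` (Fricke).
* `heckeSeries ℓ g` : weight-2 `T_ℓ` on `q`-series, `c_n ↦ c_{nℓ} + ℓ·c_{n/ℓ}`.

## Leaves
* (A) `EigenKummerStatement` : `T_ℓ [D] = a [D]`, `m D = div f`  ⟹
      `heckeNorm f = c · f^a · g^m` (`c` a constant).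
* (B) `GaussKronStatement`   : a normal form `f · U₂ = c · U₁` (both primitive) gives the normal
      form `heckeNorm f · K U₂ = c^(ℓ+1) · K U₁`, `K = kronNorm ℓ`, both primitive again.
      Hence `v∞ (heckeNorm f) = (ℓ+1) v∞ f` and `red∞ (heckeNorm f) = kronNorm ℓ (red∞ f)`.
* (C) `FrickeNormStatement`  : `w_N (heckeNorm f) = heckeNorm (w_N f)`.
* (D) `DlogKronStatement`    : `dlog (kronNorm ℓ h) = T_ℓ (dlog h)` on `k((q))`, `ℓ ∈ kˣ`.
* Assembly `EigenRedInfStatement`, `EigenRedZeroStatement` : for a Hecke eigenclass `x = [D]`,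
  `m D = div f`, `p ∣ m`, the series `dlog (red f)` is a `T_ℓ`-eigen-series
  (`I3.IsEigenSeries N (insert p S) a`), at `V∞` and at `V₀`.
-/

set_option autoImplicit false

noncomputable section

namespace Fermat.Agent.Ribet.H809.M6a

open AlgebraicCurve ModularCurve
open Fermat.Agent.Ribet.H944.Wall Fermat.Agent.Ribet.H764.I3
open Fermat.Agent.S29.H395 Fermat.Agent.S37.H400 Fermat.Agent.A2

local notation "Qb" => AlgebraicClosure ℚ

/-! ## Vocabulary -/

/-- The weight-2 Hecke operator `T_ℓ` on `q`-series: `c_n ↦ c_{nℓ} + ℓ · c_{n/ℓ}`. -/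
def heckeSeries {k : Type*} [CommRing k] (ℓ : ℕ) (g : PowerSeries k) : PowerSeries k :=
  PowerSeries.mk fun n =>
    PowerSeries.coeff (n * ℓ) g + if ℓ ∣ n then (ℓ : k) * PowerSeries.coeff (n / ℓ) g else 0

theorem coeff_heckeSeries {k : Type*} [CommRing k] (ℓ : ℕ) (g : PowerSeries k) (n : ℕ) :
    PowerSeries.coeff n (heckeSeries ℓ g) =
      PowerSeries.coeff (n * ℓ) g +
        if ℓ ∣ n then (ℓ : k) * PowerSeries.coeff (n / ℓ) g else 0 := by
  rw [heckeSeries, PowerSeries.coeff_mk]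

/-- `h ∈ k((q))` is the reduction at `V∞` of `f ∈ F_N`: `f = U₁ / U₂` with `A`-integral series
`U₁, U₂`, `U₂ ∈ F_N` primitive, and `h = Ū₁ / Ū₂`. -/
def IsRedInf (A : ValuationSubring Qb) (N : ℕ) (f : modularFunctionFieldBar N)
    (h : LaurentSeries (IsLocalRing.ResidueField A)) : Prop :=
  ∃ U₁ U₂ : LaurentSeries A, H708.red A U₂ ≠ 0 ∧
    H708.incl A U₂ ∈ laurentBaseChange Qb (modularFunctionFieldFull N) ∧
    (f : LaurentSeries Qb) * H708.incl A U₂ = H708.incl A U₁ ∧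
    h * H708.red A U₂ = H708.red A U₁

/-- `h ∈ k((q))` is the reduction at `V₀ = V∞ ∘ w_N` of `f ∈ F_N`. -/
def IsRedZero (A : ValuationSubring Qb) (N : ℕ) [NeZero N] (f : modularFunctionFieldBar N)
    (h : LaurentSeries (IsLocalRing.ResidueField A)) : Prop :=
  IsRedInf A N (H528.wF N f) h

/-! ## The leaves -/

/-- **(A) KUMMER-HECKE.**  For an eigenclass `[D]` of `T_ℓ` with eigenvalue `a` and a Kummer
function `f` (`m D = div f`): `Nm_α (β f) = c · f^a · g^m`. -/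
def EigenKummerStatement : Prop :=
  ∀ (N : ℕ) [NeZero N] (ℓ : Nat.Primes) (a : ℤ) (m : ℕ), m ≠ 0 →
    ∀ (D : Divisor.degZero (K := Qb) (F := modularFunctionFieldBar N))
      (f : modularFunctionFieldBar N), f ≠ 0 →
      (∀ w : Place Qb (modularFunctionFieldBar N),
        (m : ℤ) * (D : Divisor Qb (modularFunctionFieldBar N)) w = w.ord f) →
      heckeOperatorBar N ℓ (Pic0.mk D) = a • Pic0.mk D →
      ∃ (c : Qb) (g : modularFunctionFieldBar N), c ≠ 0 ∧ g ≠ 0 ∧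
        (haveI : NeZero (ℓ : ℕ) := ⟨ℓ.2.ne_zero⟩; heckeNorm N ℓ f) =
          algebraMap Qb (modularFunctionFieldBar N) c * f ^ a * g ^ m

/-- **(B) GAUSS-KRON.**  The Hecke norm maps normal forms to normal forms:
`f · U₂ = c · U₁` (primitive) ⟹ `heckeNorm f · K U₂ = c^(ℓ+1) · K U₁` (primitive),
`K = kronNorm ℓ`, and reduction commutes with `K`. -/
def GaussKronStatement : Prop :=
  ∀ (A : ValuationSubring Qb) (N ℓ : ℕ) [NeZero N] [NeZero ℓ], ℓ.Prime → ¬ ℓ ∣ N →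
    ∀ (f : modularFunctionFieldBar N) (c : Qb) (U₁ U₂ : LaurentSeries A),
      H708.red A U₁ ≠ 0 → H708.red A U₂ ≠ 0 →
      H708.incl A U₁ ∈ laurentBaseChange Qb (modularFunctionFieldFull N) →
      H708.incl A U₂ ∈ laurentBaseChange Qb (modularFunctionFieldFull N) →
      (f : LaurentSeries Qb) * H708.incl A U₂ = H708.cst c * H708.incl A U₁ →
      (H708.red A (kronNorm ℓ U₁) = kronNorm ℓ (H708.red A U₁) ∧
        H708.red A (kronNorm ℓ U₂) = kronNorm ℓ (H708.red A U₂)) ∧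
      (H708.red A (kronNorm ℓ U₁) ≠ 0 ∧ H708.red A (kronNorm ℓ U₂) ≠ 0) ∧
      (H708.incl A (kronNorm ℓ U₁) ∈ laurentBaseChange Qb (modularFunctionFieldFull N) ∧
        H708.incl A (kronNorm ℓ U₂) ∈ laurentBaseChange Qb (modularFunctionFieldFull N)) ∧
      ((heckeNorm N ℓ f : modularFunctionFieldBar N) : LaurentSeries Qb) *
          H708.incl A (kronNorm ℓ U₂) =
        H708.cst (c ^ (ℓ + 1)) * H708.incl A (kronNorm ℓ U₁)

/-- **(B′) reduction form of (B).**  `red∞ (heckeNorm f) = kronNorm ℓ (red∞ f)`. -/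
def RedKronStatement : Prop :=
  ∀ (A : ValuationSubring Qb) (N ℓ : ℕ) [NeZero N] [NeZero ℓ], ℓ.Prime → ¬ ℓ ∣ N →
    ∀ (f : modularFunctionFieldBar N) (h : LaurentSeries (IsLocalRing.ResidueField A)),
      IsRedInf A N f h → h ≠ 0 → IsRedInf A N (heckeNorm N ℓ f) (kronNorm ℓ h)

/-- **(C) FRICKE-NORM.**  The Hecke norm commutes with the Fricke involution `w_N`
(`w_{Nℓ} α = β w_N`, `w_{Nℓ} β = α w_N`, and the swap `w_ℓ` of `F_{Nℓ}`). -/
def FrickeNormStatement : Prop :=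
  ∀ (N ℓ : ℕ) [NeZero N] [NeZero ℓ], ℓ.Prime → ¬ ℓ ∣ N →
    ∀ f : modularFunctionFieldBar N,
      H528.wF N (heckeNorm N ℓ f) = heckeNorm N ℓ (H528.wF N f)

/-- **(D) DLOG-KRON.**  `dlog (kronNorm ℓ h) = T_ℓ (dlog h)` for `ℓ` invertible in `k`. -/
def DlogKronStatement : Prop :=
  ∀ (k : Type) [Field k] (ℓ : ℕ) [NeZero ℓ], (ℓ : k) ≠ 0 →
    ∀ (h : LaurentSeries k) (g : PowerSeries k), IsDlog h g →
      IsDlog (kronNorm ℓ h) (heckeSeries ℓ g)

/-! ## The assembled statements (what I1 / I3 consume) -/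

/-- **M6a at `V∞`.**  For a Hecke eigenclass `[D]` with Kummer function `f` (`m D = div f`,
`p ∣ m`) and `V∞`-reduction `h ≠ 0`: `g = dlog h` is a `T_ℓ`-eigen-series for the primes
`ℓ ∤ N`, `ℓ ∉ S ∪ {p}`. -/
def EigenRedInfStatement : Prop :=
  ∀ (p N : ℕ) [NeZero N] (A : ValuationSubring Qb), p.Prime → (p : Qb) ∈ A.nonunits →
    ∀ (S : Finset ℕ) (a : ℕ → ℤ) (m : ℕ), p ∣ m → m ≠ 0 →
    ∀ (D : Divisor.degZero (K := Qb) (F := modularFunctionFieldBar N))
      (f : modularFunctionFieldBar N), f ≠ 0 →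
      (∀ w : Place Qb (modularFunctionFieldBar N),
        (m : ℤ) * (D : Divisor Qb (modularFunctionFieldBar N)) w = w.ord f) →
      EigenAt N S a (Pic0.mk D) →
      ∀ h : LaurentSeries (IsLocalRing.ResidueField A), IsRedInf A N f h → h ≠ 0 →
      ∀ g : PowerSeries (IsLocalRing.ResidueField A), IsDlog h g →
        IsEigenSeries N (insert p S) a g

/-- **M6a at `V₀`.**  The same for the reduction at `V₀ = V∞ ∘ w_N`. -/
def EigenRedZeroStatement : Prop :=
  ∀ (p N : ℕ) [NeZero N] (A : ValuationSubring Qb), p.Prime → (p : Qb) ∈ A.nonunits →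
    ∀ (S : Finset ℕ) (a : ℕ → ℤ) (m : ℕ), p ∣ m → m ≠ 0 →
    ∀ (D : Divisor.degZero (K := Qb) (F := modularFunctionFieldBar N))
      (f : modularFunctionFieldBar N), f ≠ 0 →
      (∀ w : Place Qb (modularFunctionFieldBar N),
        (m : ℤ) * (D : Divisor Qb (modularFunctionFieldBar N)) w = w.ord f) →
      EigenAt N S a (Pic0.mk D) →
      ∀ h : LaurentSeries (IsLocalRing.ResidueField A), IsRedZero A N f h → h ≠ 0 →
      ∀ g : PowerSeries (IsLocalRing.ResidueField A), IsDlog h g →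
        IsEigenSeries N (insert p S) a g

/-! ## Trivial glue -/

/-- Passing from level `p·M'` to level `M'` (the shape `I3.R3PStatement` consumes). -/
theorem isEigenSeries_lower {k : Type} [Field k] (p M' : ℕ) (hp : p.Prime) (S : Finset ℕ)
    (a : ℕ → ℤ) (g : PowerSeries k) (h : IsEigenSeries (p * M') (insert p S) a g) :
    IsEigenSeries M' (insert p S) a g := by
  intro ℓ hℓ hℓM hℓS n
  refine h ℓ hℓ ?_ hℓS n
  intro hd
  rcases (Nat.Prime.dvd_mul hℓ).mp hd with h1 | h1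
  · exact hℓS (by rw [(Nat.prime_dvd_prime_iff_eq hℓ hp).mp h1]; exact Finset.mem_insert_self _ _)
  · exact hℓM h1

end Fermat.Agent.Ribet.H809.M6a

end
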